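import Mathlib.RingTheory.Depth.Rees
import Mathlib.RingTheory.Regular.Free
import Mathlib.RingTheory.Regular.RegularSequence
import Mathlib.RingTheory.Ideal.Quotient.Noetherian

/-!
# A maximal Cohen-Macaulay module over a regular local ring is free (elementary version)

`Fermat.Agent.S57.ABLite.free_of_isRegular`: let `A` be a Noetherian local ring whose maximal
ideal is generated by (at most) `n` elements, and let `N` be a finite `A`-module carrying an
`N`-regular sequence of length `n` inside the maximal ideal. Then `N` is free.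

The proof is by induction on `n`, using prime avoidance to pick `x ∈ 𝔪 \ 𝔪²` that is `N`-regular,
the Rees theorem (to see that `N/xN` still has a regular sequence of length `n - 1`) and
`Module.free_quotSMulTop_iff_free` to lift freeness from `N/xN` over `A/(x)`.
-/

set_option autoImplicit false
set_option linter.style.haveILetI false

universe u

open IsLocalRing RingTheory.Sequence CategoryTheory Abelian

namespace Fermat.Agent.S57.ABLite

/-- Prime avoidance: a nontrivial finite module over a Noetherian local ring having a regular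
element in the maximal ideal has a regular element in `𝔪 \ 𝔪²`. -/
lemma exists_regular_notMem_sq {A : Type u} [CommRing A] [IsLocalRing A] [IsNoetherianRing A]
    {N : Type u} [AddCommGroup N] [Module A N] [Module.Finite A N] [Nontrivial N]
    {y : A} (hy : y ∈ maximalIdeal A) (hyreg : IsSMulRegular N y) :
    ∃ x ∈ maximalIdeal A, x ∉ (maximalIdeal A) ^ 2 ∧ IsSMulRegular N x := by
  classical
  by_contra h
  push Not at h
  have hfin := associatedPrimes.finite A N
  have hsub : ((maximalIdeal A : Ideal A) : Set A) ⊆
      ((id ((maximalIdeal A) ^ 2) : Ideal A) : Set A) ∪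
        ((id ((maximalIdeal A) ^ 2) : Ideal A) : Set A) ∪
        ⋃ i ∈ (↑hfin.toFinset : Set (Ideal A)), ((id i : Ideal A) : Set A) := by
    intro x hx
    by_cases hx2 : x ∈ (maximalIdeal A) ^ 2
    · exact Or.inl (Or.inl hx2)
    · right
      have hnr := h x hx hx2
      have : x ∈ ({ r : A | IsSMulRegular N r }ᶜ : Set A) := hnr
      rw [← biUnion_associatedPrimes_eq_compl_regular A N] at this
      simpa using this
  have key := (Ideal.subset_union_prime' (R := A) (s := hfin.toFinset) (f := id)
    (a := (maximalIdeal A) ^ 2) (b := (maximalIdeal A) ^ 2)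
    (fun i hi => by
      have : i ∈ associatedPrimes A N := by simpa using hi
      exact IsAssociatedPrime.isPrime this) (I := maximalIdeal A)).mp hsub
  have hcase1 : ¬ (maximalIdeal A ≤ (maximalIdeal A) ^ 2) := by
    intro hle
    have hbot : maximalIdeal A = ⊥ := by
      apply Submodule.eq_bot_of_le_smul_of_le_jacobson_bot (maximalIdeal A) (maximalIdeal A)
        (IsNoetherian.noetherian _)
      · rw [smul_eq_mul, ← pow_two]; exact hle
      · exact IsLocalRing.maximalIdeal_le_jacobson _
    have hy0 : y = 0 := by simpa [hbot] using hy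
    rw [hy0] at hyreg
    have := (IsSMulRegular.zero_iff_subsingleton (R := A) (M := N)).mp hyreg
    exact not_subsingleton N this
  rcases key with h1 | h1 | ⟨p, hp, hle⟩
  · exact hcase1 h1
  · exact hcase1 h1
  · have hpa : p ∈ associatedPrimes A N := by simpa using hp
    have : y ∈ ⋃ p ∈ associatedPrimes A N, (p : Set A) := by
      simp only [Set.mem_iUnion]
      exact ⟨p, hpa, hle hy⟩
    rw [biUnion_associatedPrimes_eq_compl_regular A N] at this
    exact this hyreg

/-- Generator exchange: if `𝔪 = span s` and `x ∈ 𝔪 \ 𝔪²`, one generator can be replaced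
by `x`. -/
lemma exists_finset_insert_span {A : Type u} [CommRing A] [IsLocalRing A]
    (s : Finset A) (hs : Ideal.span (s : Set A) = maximalIdeal A)
    {x : A} (hx : x ∈ maximalIdeal A) (hx2 : x ∉ (maximalIdeal A) ^ 2) :
    ∃ t : Finset A, t.card + 1 ≤ s.card ∧
      Ideal.span (insert x (t : Set A)) = maximalIdeal A := by
  classical
  have hxs : x ∈ Ideal.span (s : Set A) := hs ▸ hx
  obtain ⟨c, -, hc⟩ := Submodule.mem_span_finset.mp hxs
  have hex : ∃ a ∈ s, c a ∉ maximalIdeal A := by
    by_contra hcon
    push Not at hcon
    apply hx2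
    rw [← hc, pow_two]
    refine Ideal.sum_mem _ fun a ha => ?_
    rw [smul_eq_mul]
    exact Ideal.mul_mem_mul (hcon a ha) (hs ▸ Ideal.subset_span ha)
  obtain ⟨a, has, hca⟩ := hex
  have hu : IsUnit (c a) := by
    by_contra hnu
    exact hca ((IsLocalRing.mem_maximalIdeal _).mpr hnu)
  refine ⟨s.erase a, by rw [Finset.card_erase_add_one has], ?_⟩
  apply le_antisymm
  · rw [Ideal.span_le]
    intro z hz
    rcases hz with rfl | hz
    · exact hx
    · have : z ∈ s := Finset.mem_of_mem_erase hz
      exact hs ▸ Ideal.subset_span this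
  · rw [← hs, Ideal.span_le]
    intro z hz
    by_cases hza : z = a
    · subst hza
      have hsum : c z * z = x - ∑ b ∈ s.erase z, c b • b := by
        rw [← hc, ← Finset.add_sum_erase s _ has]
        simp [smul_eq_mul]
      have hmem : c z * z ∈ Ideal.span (insert x ((s.erase z : Finset A) : Set A)) := by
        rw [hsum]
        refine Ideal.sub_mem _ (Ideal.subset_span (Set.mem_insert _ _)) ?_
        refine Ideal.sum_mem _ fun b hb => ?_
        rw [smul_eq_mul]
        exact Ideal.mul_mem_left _ _ (Ideal.subset_span (Set.mem_insert_of_mem _ hb))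
      obtain ⟨u, hu'⟩ := hu
      have : z = (↑u⁻¹ : A) * (c z * z) := by
        rw [← mul_assoc, ← hu', Units.inv_mul, one_mul]
      have h2 := Ideal.mul_mem_left _ (↑u⁻¹ : A) hmem
      rw [← this] at h2
      exact h2
    · exact Ideal.subset_span (Set.mem_insert_of_mem _ (Finset.mem_erase.mpr ⟨hza, hz⟩))

lemma maximalIdeal_smul_top_lt_top {A : Type u} [CommRing A] [IsLocalRing A]
    {N : Type u} [AddCommGroup N] [Module A N] [Module.Finite A N] [Nontrivial N] :
    (maximalIdeal A) • (⊤ : Submodule A N) < ⊤ := by
  refine lt_of_le_of_ne le_top ?_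
  exact (Submodule.top_ne_ideal_smul_of_le_jacobson_annihilator
    (IsLocalRing.maximalIdeal_le_jacobson _)).symm

/-- Depth drops by at most one modulo a regular element (via the Rees theorem). -/
lemma exists_isRegular_quotSMulTop {A : Type u} [CommRing A] [IsLocalRing A] [IsNoetherianRing A]
    {N : Type u} [AddCommGroup N] [Module A N] [Module.Finite A N]
    (rs : List A) (hmem : ∀ r ∈ rs, r ∈ maximalIdeal A) (hreg : IsRegular N rs)
    {x : A} (hx : x ∈ maximalIdeal A) (hxreg : IsSMulRegular N x) (n : ℕ)
    (hn : rs.length = n + 1) :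
    ∃ rs' : List A, rs'.length = n ∧ (∀ r ∈ rs', r ∈ maximalIdeal A) ∧
      IsRegular (QuotSMulTop x N) rs' := by
  have hN : Nontrivial N := hreg.nontrivial
  have hN' : Nontrivial (QuotSMulTop x N) := nontrivial_quotSMulTop_of_mem_maximalIdeal N hx
  let k : ModuleCat.{u} A := ModuleCat.of A (A ⧸ maximalIdeal A)
  have hsupp : Module.support A k = PrimeSpectrum.zeroLocus (maximalIdeal A : Set A) := by
    rw [Module.support_eq_zeroLocus, Ideal.annihilator_quotient]
  have hext : ∀ i < rs.length, Subsingleton (Ext k (ModuleCat.of A N) i) :=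
    ModuleCat.subsingleton_ext_of_exists_isRegular (maximalIdeal A) k hsupp.subset
      (ModuleCat.of A N) maximalIdeal_smul_top_lt_top rs hmem hreg
  have hext' : ∀ i < n, Subsingleton (Ext k (ModuleCat.of A (QuotSMulTop x N)) i) := by
    intro i hi
    have zero1 := AddCommGrpCat.isZero_of_iff_subsingleton.mpr (hext i (by omega))
    have zero2 := AddCommGrpCat.isZero_of_iff_subsingleton.mpr (hext (i + 1) (by omega))
    have hS : (ModuleCat.smulShortComplex (ModuleCat.of A N) x).ShortExact :=
      IsSMulRegular.smulShortComplex_shortExact hxreg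
    exact AddCommGrpCat.subsingleton_of_isZero <| ShortComplex.Exact.isZero_of_both_zeros
      ((Ext.covariant_sequence_exact₃' k hS) i (i + 1) rfl)
      (zero1.eq_zero_of_src _) (zero2.eq_zero_of_tgt _)
  exact ModuleCat.exists_isRegular_of_exists_subsingleton_ext (maximalIdeal A) n
    (ModuleCat.of A (QuotSMulTop x N)) maximalIdeal_smul_top_lt_top k hsupp hext'

theorem free_of_isRegular_aux (n : ℕ) : ∀ (A : Type u) [CommRing A] [IsLocalRing A]
    [IsNoetherianRing A] (N : Type u) [AddCommGroup N] [Module A N] [Module.Finite A N]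
    (s : Finset A) (_ : Ideal.span (s : Set A) = maximalIdeal A)
    (rs : List A) (_ : rs.length = n) (_ : s.card ≤ n) (_ : ∀ r ∈ rs, r ∈ maximalIdeal A)
    (_ : IsRegular N rs), Module.Free A N := by
  classical
  induction n with
  | zero =>
    intro A _ _ _ N _ _ _ s hs rs hlen hcard hmem hreg
    have hs0 : s = ∅ := Finset.card_eq_zero.mp (Nat.le_zero.mp hcard)
    have hbot : maximalIdeal A = ⊥ := by rw [← hs, hs0]; simp
    have hf : IsField A := IsLocalRing.isField_iff_maximalIdeal_eq.mpr hbot
    letI := hf.toField
    exact Module.Free.of_divisionRing A N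
  | succ n ih =>
    intro A _ _ _ N _ _ _ s hs rs hlen hcard hmem hreg
    have hN : Nontrivial N := hreg.nontrivial
    obtain ⟨y, rs₀, rfl⟩ : ∃ y rs₀, rs = y :: rs₀ := by
      cases rs with
      | nil => simp at hlen
      | cons y rs₀ => exact ⟨y, rs₀, rfl⟩
    have hyreg : IsSMulRegular N y := ((isRegular_cons_iff N y rs₀).mp hreg).1
    have hy : y ∈ maximalIdeal A := hmem y (List.mem_cons_self)
    obtain ⟨x, hx, hx2, hxreg⟩ := exists_regular_notMem_sq hy hyreg
    obtain ⟨t, htcard, htspan⟩ := exists_finset_insert_span s hs hx hx2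
    obtain ⟨rs', hlen', hmem', hreg'⟩ :=
      exists_isRegular_quotSMulTop (y :: rs₀) hmem hreg hx hxreg n hlen
    have hreg2 : IsRegular N (x :: rs') := (isRegular_cons_iff N x rs').mpr ⟨hxreg, hreg'⟩
    have hreg3 := ((isRegular_cons_iff' N x rs').mp hreg2).2
    have hne : Ideal.span {x} ≠ (⊤ : Ideal A) := by
      intro h
      have hle : Ideal.span {x} ≤ maximalIdeal A := by
        rw [Ideal.span_le]; simpa using hx
      have : (1 : A) ∈ maximalIdeal A := hle (h ▸ Submodule.mem_top)
      exact (Ideal.ne_top_iff_one _).mp (IsLocalRing.maximalIdeal.isMaximal A).ne_top this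
    haveI : Nontrivial (A ⧸ Ideal.span {x}) := Ideal.Quotient.nontrivial_iff.mpr hne
    haveI : IsLocalRing (A ⧸ Ideal.span {x}) :=
      IsLocalRing.of_surjective' (Ideal.Quotient.mk _) Ideal.Quotient.mk_surjective
    haveI : IsLocalHom (Ideal.Quotient.mk (Ideal.span {x})) :=
      IsLocalHom.of_surjective (Ideal.Quotient.mk _) Ideal.Quotient.mk_surjective
    have hmax : (maximalIdeal A).map (Ideal.Quotient.mk (Ideal.span {x})) =
        maximalIdeal (A ⧸ Ideal.span {x}) := by
      ext z
      obtain ⟨z, rfl⟩ := Ideal.Quotient.mk_surjective z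
      rw [Ideal.mem_map_iff_of_surjective _ Ideal.Quotient.mk_surjective]
      constructor
      · rintro ⟨w, hw, hwz⟩
        rw [← hwz]
        rw [IsLocalRing.mem_maximalIdeal] at hw ⊢
        intro hu
        exact hw (isUnit_of_map_unit (Ideal.Quotient.mk (Ideal.span {x})) w hu)
      · intro hz
        refine ⟨z, ?_, rfl⟩
        rw [IsLocalRing.mem_maximalIdeal] at hz ⊢
        intro hu
        exact hz (hu.map _)
    haveI : Module.Finite (A ⧸ Ideal.span {x}) (QuotSMulTop x N) :=
      Module.Finite.of_restrictScalars_finite A _ _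
    have hfree : Module.Free (A ⧸ Ideal.span {x}) (QuotSMulTop x N) := by
      refine ih (A ⧸ Ideal.span {x}) (QuotSMulTop x N) (t.image (Ideal.Quotient.mk _)) ?_
        (rs'.map (Ideal.Quotient.mk _)) ?_ ?_ ?_ hreg3
      · rw [← hmax, ← htspan, Ideal.map_span, Finset.coe_image, Set.image_insert_eq]
        apply le_antisymm
        · rw [Ideal.span_le]
          exact fun z hz => Ideal.subset_span (Set.mem_insert_of_mem _ hz)
        · rw [Ideal.span_le]
          rintro z (rfl | hz)
          · have : (Ideal.Quotient.mk (Ideal.span {x})) x = 0 :=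
              Ideal.Quotient.eq_zero_iff_mem.mpr (Ideal.subset_span rfl)
            rw [this]
            exact Ideal.zero_mem _
          · exact Ideal.subset_span hz
      · simpa using hlen'
      · have := Finset.card_image_le (s := t) (f := Ideal.Quotient.mk (Ideal.span {x}))
        omega
      · intro r hr
        obtain ⟨r', hr', rfl⟩ := List.mem_map.mp hr
        rw [← hmax]
        exact Ideal.mem_map_of_mem _ (hmem' r' hr')
    haveI : Module.FinitePresentation A N := Module.finitePresentation_of_finite A N
    exact (Module.free_quotSMulTop_iff_free A N (x := x)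
      (IsLocalRing.maximalIdeal_le_jacobson _ hx) hxreg).mp hfree

/-- **MCM ⇒ free.** Let `A` be a Noetherian local ring whose maximal ideal is generated by a
finite set `s`, and `N` a finite `A`-module with an `N`-regular sequence `rs` in the maximal
ideal such that `s.card ≤ rs.length`. Then `N` is a free `A`-module. -/
theorem free_of_isRegular {A : Type u} [CommRing A] [IsLocalRing A] [IsNoetherianRing A]
    {N : Type u} [AddCommGroup N] [Module A N] [Module.Finite A N]
    (s : Finset A) (hs : Ideal.span (s : Set A) = maximalIdeal A)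
    (rs : List A) (hcard : s.card ≤ rs.length) (hmem : ∀ r ∈ rs, r ∈ maximalIdeal A)
    (hreg : IsRegular N rs) : Module.Free A N :=
  free_of_isRegular_aux rs.length A N s hs rs rfl hcard hmem hreg

/-- Variant of `free_of_isRegular` with a weakly regular sequence on a nontrivial module. -/
theorem free_of_isWeaklyRegular {A : Type u} [CommRing A] [IsLocalRing A] [IsNoetherianRing A]
    {N : Type u} [AddCommGroup N] [Module A N] [Module.Finite A N] [Nontrivial N]
    (s : Finset A) (hs : Ideal.span (s : Set A) = maximalIdeal A)
    (rs : List A) (hcard : s.card ≤ rs.length) (hmem : ∀ r ∈ rs, r ∈ maximalIdeal A)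
    (hreg : IsWeaklyRegular N rs) : Module.Free A N :=
  free_of_isRegular s hs rs hcard hmem (IsRegular.of_isWeaklyRegular_of_mem_maximalIdeal N hmem hreg)

end Fermat.Agent.S57.ABLite
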