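import Fermat.Prelude.Def_Algebra_PatchingDatum
import Mathlib.LinearAlgebra.FreeModule.Finite.Basic
import Mathlib.LinearAlgebra.FreeModule.Basic
import Mathlib.RingTheory.Ideal.Operations
import Mathlib.RingTheory.Finiteness.Basic
import Mathlib.LinearAlgebra.Basis.Basic

set_option autoImplicit false

namespace Fermat.Agent.S57

open MvPowerSeries

section Endgame

variable {𝒪 : Type} [CommRing 𝒪]
    {r : ℕ} {R : Type} [CommRing R] [Algebra 𝒪 R]
    {M : Type} [AddCommGroup M] [Module R M]
    {J : Ideal (MvPowerSeries (Fin r) 𝒪)}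
    (L : Algebra.PatchingLevel 𝒪 r R M J)

/-- The ideal generated by the `φ X_i`. -/
noncomputable def relIdeal : Ideal (MvPowerSeries (Fin r) 𝒪) :=
  Ideal.span (Set.range fun i : Fin r => L.φ (MvPowerSeries.X i))

lemma relIdeal_le_ker : relIdeal L ≤ RingHom.ker L.ψ := by
  unfold relIdeal
  rw [Ideal.span_le]
  rintro _ ⟨i, rfl⟩
  exact L.ψ_φ_X i

include L in
lemma nontrivial_N [Nontrivial M] : Nontrivial L.N := by
  obtain ⟨m, hm⟩ := exists_ne (0 : M)
  obtain ⟨x, rfl⟩ := L.π_surjective m
  exact ⟨x, 0, fun h => hm (by rw [h, map_zero])⟩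

lemma finite_N : Module.Finite (MvPowerSeries (Fin r) 𝒪) L.N := by
  refine Module.Finite.of_surjective (Fintype.linearCombination (MvPowerSeries (Fin r) 𝒪) L.b) ?_
  intro x
  obtain ⟨c, rfl⟩ := L.b_span x
  exact ⟨fun i => L.φ (c i), by simp [Fintype.linearCombination_apply]⟩

/-- In a free module with basis `e`, membership in `I • ⊤` is tested on coordinates. -/
lemma mem_smul_top_iff_repr {A : Type*} [CommRing A] {N : Type*} [AddCommGroup N] [Module A N]
    {ι : Type*} (e : Module.Basis ι A N) (I : Ideal A) (x : N) :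
    x ∈ I • (⊤ : Submodule A N) ↔ ∀ i, e.repr x i ∈ I := by
  rw [← e.span_eq, Submodule.mem_ideal_smul_span_iff_exists_sum]
  constructor
  · rintro ⟨a, ha, rfl⟩ i
    have : (a.sum fun i c => c • e i) = Finsupp.linearCombination A e a := rfl
    rw [this, e.repr_linearCombination]
    exact ha i
  · intro h
    refine ⟨e.repr x, h, ?_⟩
    exact e.linearCombination_repr x

/-- The endgame: once `N` is known to be free over the power series ring (for its own module
structure), everything follows. -/
theorem endgame [Nontrivial M] [Module.Free (MvPowerSeries (Fin r) 𝒪) L.N] :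
    Module.Free R M ∧ Module.annihilator R M = ⊥ ∧
      RingHom.ker L.ψ = Ideal.span (Set.range fun i : Fin r => L.φ (MvPowerSeries.X i)) := by
  classical
  have := finite_N L
  have := nontrivial_N L
  let A := MvPowerSeries (Fin r) 𝒪
  let ι := Module.Free.ChooseBasisIndex A L.N
  let e : Module.Basis ι A L.N := Module.Free.chooseBasis A L.N
  have : Fintype ι := Module.Free.ChooseBasisIndex.fintype A L.N
  have : Nonempty ι := e.index_nonempty
  have hker : RingHom.ker L.ψ = relIdeal L := by
    refine le_antisymm ?_ (relIdeal_le_ker L)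
    intro f hf
    obtain ⟨j⟩ := ‹Nonempty ι›
    have h1 : L.π (f • e j) = 0 := by
      rw [L.π_smul, RingHom.mem_ker.mp hf, zero_smul]
    have h2 := (L.ker_π _).mp h1
    have h3 := (mem_smul_top_iff_repr e _ _).mp h2 j
    simpa [relIdeal] using h3
  -- the images of the basis
  have hli : LinearIndependent R (fun j => L.π (e j)) := by
    rw [Fintype.linearIndependent_iff]
    intro g hg j
    choose a ha using fun j => L.ψ_surjective (g j)
    have h1 : L.π (∑ j, a j • e j) = 0 := by
      rw [map_sum, ← hg]
      refine Finset.sum_congr rfl fun j _ => ?_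
      rw [L.π_smul, ha]
    have h2 := (L.ker_π _).mp h1
    have h3 := (mem_smul_top_iff_repr e _ _).mp h2 j
    have h4 : e.repr (∑ j, a j • e j) j = a j := by
      rw [e.repr_sum_self]
    rw [h4] at h3
    have h5 : a j ∈ RingHom.ker L.ψ := relIdeal_le_ker L h3
    rw [← ha j]
    exact h5
  have hsp : ⊤ ≤ Submodule.span R (Set.range fun j => L.π (e j)) := by
    rintro m -
    obtain ⟨x, rfl⟩ := L.π_surjective m
    rw [← e.sum_repr x, map_sum]
    refine Submodule.sum_mem _ fun j _ => ?_
    rw [L.π_smul]
    exact Submodule.smul_mem _ _ (Submodule.subset_span ⟨j, rfl⟩)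
  let eM : Module.Basis ι R M := Module.Basis.mk hli hsp
  refine ⟨Module.Free.of_basis eM, ?_, hker⟩
  rw [eq_bot_iff]
  intro s hs
  obtain ⟨j⟩ := ‹Nonempty ι›
  have h1 : s • eM j = 0 := Module.mem_annihilator.mp hs _
  have h2 := eM.linearIndependent
  rw [Fintype.linearIndependent_iff] at h2
  have h3 := h2 (fun i => if i = j then s else 0) (by simpa using h1) j
  simpa using h3

end Endgame

end Fermat.Agent.S57
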