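import Fermat.Prelude.Def_Algebra_PatchingDatum
import Mathlib.RingTheory.Regular.RegularSequence
import Mathlib.RingTheory.Flat.Basic

set_option autoImplicit false

namespace Fermat.Agent.S57

open MvPowerSeries RingTheory.Sequence

section Transport

variable {𝒪 : Type} [CommRing 𝒪]
    {r : ℕ} {R : Type} [CommRing R] [Algebra 𝒪 R]
    {M : Type} [AddCommGroup M] [Module R M]
    (L : Algebra.PatchingLevel 𝒪 r R M ⊥)

/-- The additive map `A^d → N`, `c ↦ ∑ φ(c i) • b i`. -/
noncomputable def coordHom : (Fin L.d → MvPowerSeries (Fin r) 𝒪) →+ L.N where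
  toFun c := ∑ i, L.φ (c i) • L.b i
  map_zero' := by simp
  map_add' c c' := by simp [add_smul, Finset.sum_add_distrib]

lemma coordHom_apply (c : Fin L.d → MvPowerSeries (Fin r) 𝒪) :
    coordHom L c = ∑ i, L.φ (c i) • L.b i := rfl

lemma coordHom_smul (a : MvPowerSeries (Fin r) 𝒪) (c : Fin L.d → MvPowerSeries (Fin r) 𝒪) :
    coordHom L (a • c) = L.φ a • coordHom L c := by
  simp [coordHom_apply, Finset.smul_sum, mul_smul]

lemma coordHom_injective : Function.Injective (coordHom L) := by
  rw [injective_iff_map_eq_zero]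
  intro c hc
  have := (L.b_rel c).mp hc
  funext i
  simpa using this i

lemma coordHom_surjective : Function.Surjective (coordHom L) := by
  intro x
  obtain ⟨c, hc⟩ := L.b_span x
  exact ⟨c, hc.symm⟩

/-- The `φ`-semilinear additive bijection `A^d ≃ N`. -/
noncomputable def coordEquiv : (Fin L.d → MvPowerSeries (Fin r) 𝒪) ≃+ L.N :=
  AddEquiv.ofBijective (coordHom L) ⟨coordHom_injective L, coordHom_surjective L⟩

lemma coordEquiv_smul (a : MvPowerSeries (Fin r) 𝒪) (c : Fin L.d → MvPowerSeries (Fin r) 𝒪) :
    coordEquiv L (a • c) = L.φ a • coordEquiv L c :=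
  coordHom_smul L a c

/-- A weakly regular sequence on a ring is weakly regular on a finite power of it. -/
lemma isWeaklyRegular_pi {A : Type*} [CommRing A] (d : ℕ) {xs : List A}
    (h : IsWeaklyRegular A xs) : IsWeaklyRegular (Fin d → A) xs := by
  have h1 : IsWeaklyRegular (TensorProduct A (Fin d → A) A) xs := h.isWeaklyRegular_lTensor
  exact ((TensorProduct.rid A (Fin d → A)).isWeaklyRegular_congr xs).mp h1

/-- Transport of a (weakly) regular sequence on `A` to `N` through `φ`. -/
theorem isWeaklyRegular_map_phi {xs : List (MvPowerSeries (Fin r) 𝒪)}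
    (h : IsWeaklyRegular (MvPowerSeries (Fin r) 𝒪) xs) :
    IsWeaklyRegular L.N (xs.map L.φ) := by
  have h1 := isWeaklyRegular_pi L.d h
  refine ((coordEquiv L).isWeaklyRegular_congr ?_).mp h1
  rw [List.forall₂_map_right_iff, List.forall₂_same]
  intro a _ c
  exact coordEquiv_smul L a c

end Transport

end Fermat.Agent.S57
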